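import Fermat.Agent.BrauerSuzuki.Frame
import Fermat.Agent.CharacterTheory.Artin
import Mathlib.RingTheory.RootsOfUnity.Complex
import Mathlib.RingTheory.IntegralDomain

/-!
# The exceptional characters of a quaternion Sylow subgroup

With `δ` the linear character of `C = C(u)` of order `M` on `x`, the function induced from `1 - δ`
is `1` and two irreducible characters with signs.  No product of two conjugates of `z` is in its
support, so both have their degree as value at `z`; they are not both trivial at `u`.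
-/

set_option autoImplicit false
set_option linter.style.haveILetI false

noncomputable section

open Finset FA.FrobeniusGroups FA.CharacterTheory

namespace FA.BrauerSuzuki

variable {G : Type*} [Group G] [Fintype G] {M : ℕ} (F : Frame G M)

omit [Fintype G] in
include F in
/-- An odd number is prime to `M`. -/
theorem Frame.coprime_of_odd {n : ℕ} (hn : ¬ 2 ∣ n) : n.Coprime M := by
  obtain ⟨k, rfl⟩ := F.two_pow
  exact ((Nat.prime_two.coprime_iff_not_dvd.2 hn).symm).pow_right k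

/-- The linear character of `C`. -/
theorem Frame.exists_delta :
    ∃ δ : F.C →* ℂˣ, δ ⟨F.x, F.x_mem_C⟩ ^ 2 ≠ 1 ∧ δ ⟨F.x, F.x_mem_C⟩ ^ (M / 2) ≠ 1 ∧
      (∀ h, δ h ^ M = 1) ∧
      ∀ (h : G) (hh : h ∈ F.C), δ ⟨F.y * h * F.y⁻¹, F.y_conj_C hh⟩ = (δ ⟨h, hh⟩)⁻¹ := by
  haveI : Fact (Nat.Prime 2) := ⟨Nat.prime_two⟩
  set P := F.sylowC
  set X : F.C := ⟨F.x, F.x_mem_C⟩ with hX
  have hXP : X ∈ (P : Subgroup F.C) := Subgroup.mem_subgroupOf.2 (Subgroup.mem_zpowers F.x)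
  have hXord : orderOf X = 2 * M := by rw [← Subgroup.orderOf_coe, F.order_x]
  have hmin : (Nat.card F.C).minFac = 2 := (Nat.minFac_eq_two_iff _).2
    ((Dvd.intro M rfl : 2 ∣ 2 * M).trans (hXord ▸ orderOf_dvd_natCard X))
  have hc := IsCyclic.isComplement' hmin F.sylowC_isCyclic
  set K := (MonoidHom.transferSylow P (F.sylowC_isCyclic.normalizer_le_centralizer hmin)).ker
  set g₀ : F.C ⧸ K := QuotientGroup.mk X
  have hgen : ∀ q : F.C ⧸ K, q ∈ Subgroup.zpowers g₀ := by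
    intro q
    obtain ⟨h, rfl⟩ := QuotientGroup.mk_surjective q
    obtain ⟨⟨k, s⟩, hks⟩ := hc.2 h
    obtain ⟨i, hi⟩ := Subgroup.mem_subgroupOf.1 s.2
    refine ⟨i, ?_⟩
    have hs : X ^ i = (s : F.C) := Subtype.ext (by simpa [hX] using hi)
    show g₀ ^ i = (h : F.C ⧸ K)
    rw [← hks, QuotientGroup.mk_mul, (QuotientGroup.eq_one_iff (k : F.C)).2 k.2, one_mul, ← hs,
      QuotientGroup.mk_zpow]
  have hg₀ : orderOf g₀ = 2 * M := by
    refine Nat.dvd_antisymm (hXord ▸ orderOf_map_dvd (QuotientGroup.mk' K) X) ?_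
    rw [← hXord]
    refine orderOf_dvd_of_pow_eq_one ?_
    refine Subgroup.disjoint_def.1 hc.disjoint ((QuotientGroup.eq_one_iff _).1 ?_)
      (pow_mem hXP _)
    rw [QuotientGroup.mk_pow]
    exact pow_orderOf_eq_one _
  have hM0 : M ≠ 0 := F.M_pos.ne'
  set ζ : ℂˣ := ((Complex.isPrimitiveRoot_exp M hM0).isUnit hM0).unit with hζ
  have hprim : IsPrimitiveRoot ζ M :=
    (IsPrimitiveRoot.coe_units_iff (ζ := ζ)).1 (Complex.isPrimitiveRoot_exp M hM0)
  have hdvd : orderOf ζ ∣ orderOf g₀ := by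
    rw [hg₀, ← hprim.eq_orderOf]
    exact Dvd.intro_left 2 rfl
  set δ : F.C →* ℂˣ := (monoidHomOfForallMemZpowers hgen hdvd).comp (QuotientGroup.mk' K)
  have hδX : δ X = ζ := monoidHomOfForallMemZpowers_apply_gen hgen hdvd
  have hδM : ∀ h, δ h ^ M = 1 := by
    intro h
    obtain ⟨i, hi⟩ := hgen (QuotientGroup.mk h)
    show monoidHomOfForallMemZpowers hgen hdvd (QuotientGroup.mk h) ^ M = 1
    rw [← hi]
    show monoidHomOfForallMemZpowers hgen hdvd (g₀ ^ i) ^ M = 1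
    rw [map_zpow, monoidHomOfForallMemZpowers_apply_gen, ← zpow_natCast, ← zpow_mul, mul_comm,
      zpow_mul, zpow_natCast, hprim.pow_eq_one, one_zpow]
  have hodd : ∀ b : F.C, ¬ 2 ∣ orderOf b → δ b = 1 := fun b hb =>
    orderOf_eq_one_iff.1 <| Nat.eq_one_of_dvd_coprimes (k := orderOf (δ b))
      (F.coprime_of_odd hb)
      (orderOf_map_dvd δ b) (orderOf_dvd_of_pow_eq_one (hδM b))
  have h4 := F.four_le
  refine ⟨δ, ?_, ?_, hδM, fun h hh => ?_⟩
  · rw [hδX]
    exact hprim.pow_ne_one_of_pos_of_lt two_ne_zero (by omega)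
  · rw [hδX]
    exact hprim.pow_ne_one_of_pos_of_lt (by omega) (by omega)
  · set h' : F.C := ⟨h, hh⟩
    obtain ⟨⟨k, s⟩, hks⟩ := hc.2 h'
    obtain ⟨i, hi⟩ := Subgroup.mem_subgroupOf.1 s.2
    have hKodd : ∀ b : K, ¬ 2 ∣ orderOf (b : F.C) := fun b hb => by
      refine P.not_dvd_index ?_
      rw [hc.index_eq_card]
      exact hb.trans (K.orderOf_dvd_natCard b.2)
    have hs : (s : F.C) = X ^ i := Subtype.ext (by simpa [hX] using hi.symm)
    have hk' : δ (k : F.C) = 1 := hodd _ (hKodd k)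
    have hk2 : δ ⟨F.y * (k : F.C) * F.y⁻¹, F.y_conj_C (k : F.C).2⟩ = 1 := hodd _ (by
      rw [← Subgroup.orderOf_coe]
      show ¬ 2 ∣ orderOf (F.y * ((k : F.C) : G) * F.y⁻¹)
      rw [show F.y * ((k : F.C) : G) * F.y⁻¹ = MulAut.conj F.y ((k : F.C) : G) from rfl,
        MulEquiv.orderOf_eq, Subgroup.orderOf_coe]
      exact hKodd k)
    have e1 : (⟨F.y * h * F.y⁻¹, F.y_conj_C hh⟩ : F.C) =
        ⟨F.y * (k : F.C) * F.y⁻¹, F.y_conj_C (k : F.C).2⟩ * X ^ (-i) := by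
      refine Subtype.ext ?_
      rw [Subgroup.coe_mul, Subgroup.coe_zpow]
      show F.y * h * F.y⁻¹ = F.y * ((k : F.C) : G) * F.y⁻¹ * F.x ^ (-i)
      have e2 : h = ((k : F.C) : G) * F.x ^ i := by
        have := congrArg Subtype.val hks
        simp only at this
        rw [hs] at this
        simpa [h', hX] using this.symm
      rw [e2, show F.x ^ (-i) = F.y * F.x ^ i * F.y⁻¹ by
        rw [← conj_zpow, F.conj_x, inv_zpow, zpow_neg]]
      group
    rw [e1, map_mul, hk2, one_mul, map_zpow, show h' = k * s from hks.symm, map_mul, hk', one_mul,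
      hs, map_zpow, zpow_neg]

/-- Two powers of order `4` of one element are equal or inverse. -/
theorem root_eq_or_inv {g₀ : G} {e e' : ℕ} (h4 : (g₀ ^ e) ^ 4 = 1) (h2 : (g₀ ^ e) ^ 2 ≠ 1)
    (h4' : (g₀ ^ e') ^ 4 = 1) (h2' : (g₀ ^ e') ^ 2 ≠ 1) :
    g₀ ^ e = g₀ ^ e' ∨ g₀ ^ e = (g₀ ^ e')⁻¹ := by
  set L := orderOf g₀ with hL
  have hL4 : 4 ∣ L := by
    have h1 : orderOf (g₀ ^ e) ∣ L := orderOf_pow_dvd e
    rwa [orderOf_eq_prime_pow (p := 2) (n := 1) (by rwa [pow_one]) h4] at h1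
  obtain ⟨L', hL'⟩ := hL4
  have hL0 : 0 < L' := by have := orderOf_pos g₀; omega
  set v := g₀ ^ L' with hv
  have hv4 : v ^ 4 = 1 := by rw [hv, ← pow_mul, mul_comm, ← hL', hL, pow_orderOf_eq_one]
  have key : ∀ f : ℕ, (g₀ ^ f) ^ 4 = 1 → (g₀ ^ f) ^ 2 ≠ 1 → g₀ ^ f = v ∨ g₀ ^ f = v⁻¹ := by
    intro f hf hf2
    rw [← pow_mul] at hf
    obtain ⟨r, rfl⟩ : L' ∣ f := by
      have h1 := orderOf_dvd_of_pow_eq_one hf
      rw [← hL, hL', mul_comm f] at h1
      exact Nat.dvd_of_mul_dvd_mul_left (by norm_num) h1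
    rw [pow_mul, ← hv] at hf2 ⊢
    rw [← Nat.mod_add_div r 4, pow_add, pow_mul v 4, hv4, one_pow, mul_one] at hf2 ⊢
    have : r % 4 < 4 := Nat.mod_lt _ (by norm_num)
    interval_cases r % 4
    · exact absurd (by rw [pow_zero, one_pow]) hf2
    · exact Or.inl (pow_one v)
    · exact absurd (by rw [← pow_mul]; exact hv4) hf2
    · exact Or.inr (eq_inv_of_mul_eq_one_left (by rw [← pow_succ]; exact hv4))
  rcases key e h4 h2 with h | h <;> rcases key e' h4' h2' with h' | h' <;> rw [h, h']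
  · exact Or.inl rfl
  · exact Or.inr (inv_inv v).symm
  · exact Or.inr rfl
  · exact Or.inl rfl

/-- The sum over pairs of conjugates of an element equal to its inverse. -/
theorem sum_pairs {V : Type*} [AddCommGroup V] [Module ℂ V] [FiniteDimensional ℂ V]
    (ρ : Representation ℂ G V) [Representation.IsIrreducible ρ] (z : G) :
    (∑ g₁ : G, ∑ g₂ : G, ρ.character (g₁ * z * g₁⁻¹ * (g₂ * z * g₂⁻¹))) * ρ.character 1 =
      (Nat.card G : ℂ) ^ 2 * ρ.character z ^ 2 := by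
  set T : V →ₗ[ℂ] V := ∑ g : G, ρ (g * z * g⁻¹)
  have hcomm : ∀ h, T ∘ₗ ρ h = ρ h ∘ₗ T := fun h => by
    show T * ρ h = ρ h * T
    simp only [T, sum_mul, mul_sum, ← map_mul]
    refine Fintype.sum_equiv (Equiv.mulLeft h⁻¹) _ _ fun g => congrArg ρ ?_
    rw [Equiv.coe_mulLeft]
    group
  obtain ⟨w, hw⟩ :=
    (Representation.IsIrreducible.algebraMap_intertwiningMap_bijective_of_isAlgClosed
      (ρ := ρ)).2 ⟨T, hcomm⟩
  have hT : T = algebraMap ℂ (Module.End ℂ V) w :=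
    (congrArg Representation.IntertwiningMap.toLinearMap hw).symm
  have htr : (Nat.card G : ℂ) * ρ.character z = w * ρ.character 1 := by
    have h := congrArg (LinearMap.trace ℂ V) hT
    simp only [T, map_sum, Algebra.algebraMap_eq_smul_one, map_smul, smul_eq_mul,
      LinearMap.trace_one] at h
    rw [← ρ.char_one] at h
    rw [← h]
    show _ = ∑ g : G, ρ.character (g * z * g⁻¹)
    rw [sum_congr rfl fun g _ => ρ.char_conj z g, sum_const, card_univ, nsmul_eq_mul,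
      Nat.card_eq_fintype_card]
  have hin : ∀ g₁ : G, ∑ g₂ : G, ρ.character (g₁ * z * g₁⁻¹ * (g₂ * z * g₂⁻¹)) =
      w * ρ.character z := fun g₁ => by
    show ∑ g₂ : G, LinearMap.trace ℂ V (ρ (g₁ * z * g₁⁻¹ * (g₂ * z * g₂⁻¹))) = _
    rw [← map_sum, sum_congr rfl fun g₂ _ => map_mul ρ (g₁ * z * g₁⁻¹) (g₂ * z * g₂⁻¹), ← mul_sum]
    show LinearMap.trace ℂ V (ρ (g₁ * z * g₁⁻¹) * T) = _
    rw [hT, Algebra.algebraMap_eq_smul_one, mul_smul_comm, mul_one, map_smul, smul_eq_mul]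
    exact congrArg (w * ·) (ρ.char_conj z g₁)
  rw [sum_congr rfl fun g₁ _ => hin g₁, sum_const, card_univ, nsmul_eq_mul,
    ← Nat.card_eq_fintype_card]
  linear_combination (-(Nat.card G : ℂ) * ρ.character z) * htr

open scoped Classical in
/-- **The exceptional characters**: a normal subgroup containing `z` but not `u`. -/
theorem Frame.exists_normal : ∃ L : Subgroup G, L.Normal ∧ F.z ∈ L ∧ F.u ∉ L := by
  obtain ⟨δ, hd2, hdu, hdM, hdy⟩ := F.exists_delta
  set X : F.C := ⟨F.x, F.x_mem_C⟩ with hX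
  have hδz : δ ⟨F.z, pow_mem F.x_mem_C M⟩ = 1 := by
    rw [show (⟨F.z, pow_mem F.x_mem_C M⟩ : F.C) = X ^ M from rfl, map_pow, hdM]
  set d : F.C → ℂ := fun h => (δ h : ℂ) with hd
  set f : F.C → ℂ := fun h => 1 - d h with hf
  set Φ : G → ℂ := induced F.C f with hΦ
  have hinv : ∀ h, d h⁻¹ = (d h)⁻¹ := fun h => by
    simp only [hd]; rw [map_inv, Units.val_inv_eq_inv_val]
  have hconj : ∀ a b : F.C, d (a * b * a⁻¹) = d b := fun a b => by
    simp only [hd]; rw [map_mul, map_mul, map_inv, mul_comm (δ a), mul_inv_cancel_right]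
  have hd1 : d 1 = 1 := by simp [hd]
  -- the support
  have hsupp : ∀ (h : G) (hh : h ∈ F.C), d ⟨h, hh⟩ ≠ 1 →
      ∃ e : ℕ, h ^ e = F.u ∨ h ^ e = F.u⁻¹ := by
    intro h hh hne
    obtain ⟨a, b, ha, hb, hab, hbr, hcase⟩ := F.two_part hh
    have hb1 : δ ⟨b, hb⟩ = 1 := orderOf_eq_one_iff.1 <| Nat.eq_one_of_dvd_coprimes
      (k := orderOf (δ ⟨b, hb⟩)) (show (orderOf (⟨b, hb⟩ : F.C)).Coprime M by
        rw [Subgroup.orderOf_mk]
        exact F.coprime_of_odd hbr)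
      (orderOf_map_dvd δ _) (orderOf_dvd_of_pow_eq_one (hdM _))
    refine hcase.elim (fun h1 => absurd ?_ hne) fun hcase => hcase.elim (fun h1 => absurd ?_ hne) id
    all_goals
      have he : (⟨h, hh⟩ : F.C) = ⟨a, ha⟩ * ⟨b, hb⟩ := Subtype.ext hab
      simp only [hd, Units.val_eq_one]
      rw [he, map_mul, hb1, mul_one]
      subst h1
    · exact map_one δ
    · exact hδz
  have hu4 : ∀ w : G, w = F.u ∨ w = F.u⁻¹ → w ^ 4 = 1 ∧ w ^ 2 ≠ 1 := by
    rintro w (rfl | rfl)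
    · exact ⟨F.u_pow_four, by rw [F.u_sq]; exact F.z_ne_one⟩
    · exact ⟨by rw [inv_pow, F.u_pow_four, inv_one],
        by rw [inv_pow, F.u_sq, Ne, inv_eq_one]; exact F.z_ne_one⟩
  have hTI : ∀ (h g : G) (hh : h ∈ F.C) (hg : g * h * g⁻¹ ∈ F.C), d ⟨h, hh⟩ ≠ 1 →
      d ⟨_, hg⟩ ≠ 1 → F.InN g := by
    intro h g hh hg h1 h2
    obtain ⟨e, he⟩ := hsupp h hh h1
    obtain ⟨e', he'⟩ := hsupp _ hg h2
    obtain ⟨a4, a2⟩ := hu4 _ he
    obtain ⟨b4, b2⟩ := hu4 _ he'
    have key := root_eq_or_inv (g₀ := g * h * g⁻¹) (e := e) (e' := e')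
      (by rw [conj_pow, conj_pow, a4, mul_one, mul_inv_cancel])
      (fun hc => a2 (by rwa [conj_pow, conj_pow, mul_inv_eq_one, mul_eq_left] at hc)) b4 b2
    rw [conj_pow] at key
    rcases he with he | he <;> rcases he' with he' | he' <;> rw [he, he'] at key <;>
      rcases key with key | key
    · exact Or.inl key
    · exact Or.inr key
    · exact Or.inr key
    · exact Or.inl (key.trans (inv_inv _))
    · exact Or.inr (by rw [← conj_inv, inv_eq_iff_eq_inv] at key; exact key)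
    · exact Or.inl (by rw [← conj_inv, inv_inj] at key; exact key)
    · exact Or.inl (by rw [← conj_inv, inv_inj] at key; exact key)
    · exact Or.inr (by rw [← conj_inv, inv_inv, inv_eq_iff_eq_inv] at key; exact key)
  -- the values
  have hval : ∀ h : F.C, d h ≠ 1 → Φ (h : G) = (1 - d h) + (1 - (d h)⁻¹) := by
    intro h hne
    set Fg : G → ℂ := fun g => if hg : g * (h : G) * g⁻¹ ∈ F.C then f ⟨_, hg⟩ else 0 with hFg
    set A : Finset G := univ.map ⟨fun c : F.C => (c : G), Subtype.val_injective⟩ with hA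
    set B : Finset G := univ.map ⟨fun c : F.C => F.y * (c : G),
      (mul_right_injective F.y).comp Subtype.val_injective⟩ with hB
    have hdisj : Disjoint A B := by
      rw [disjoint_left]
      intro g hgA hgB
      obtain ⟨c, -, rfl⟩ := mem_map.1 hgA
      obtain ⟨c', -, he⟩ := mem_map.1 hgB
      refine F.y_notMem_C ?_
      have : F.y = (c : G) * (c' : G)⁻¹ := eq_mul_inv_of_mul_eq he
      rw [this]
      exact mul_mem c.2 (inv_mem c'.2)
    have hzero : ∀ g : G, g ∉ A ∪ B → Fg g = 0 := by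
      intro g hg
      simp only [hFg]
      split_ifs with hgC
      · by_contra hne'
        have hne2 : d ⟨_, hgC⟩ ≠ 1 := fun h1 => hne' (by simp [hf, h1])
        refine hg (mem_union.2 ?_)
        rcases F.inN_cases (hTI h g h.2 hgC hne hne2) with hc | hc
        · exact Or.inl (mem_map.2 ⟨⟨g, hc⟩, mem_univ _, rfl⟩)
        · exact Or.inr (mem_map.2 ⟨⟨_, hc⟩, mem_univ _, mul_inv_cancel_left _ _⟩)
      · rfl
    have hA' : ∀ c : F.C, Fg (c : G) = 1 - d h := fun c => by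
      simp only [hFg]
      rw [dif_pos (mul_mem (mul_mem c.2 h.2) (inv_mem c.2))]
      show 1 - d (c * h * c⁻¹) = _
      rw [hconj]
    have hB' : ∀ c : F.C, Fg (F.y * (c : G)) = 1 - (d h)⁻¹ := fun c => by
      have hm := F.y_conj_C (c * h * c⁻¹).2
      have he : F.y * (c : G) * (h : G) * (F.y * (c : G))⁻¹ =
          F.y * ((c * h * c⁻¹ : F.C) : G) * F.y⁻¹ := by
        push_cast; group
      simp only [hFg]
      rw [dif_pos (he ▸ hm)]
      simp only [hf, hd, he]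
      rw [hdy _ (c * h * c⁻¹).2, Units.val_inv_eq_inv_val]
      exact congrArg (fun t => 1 - t⁻¹) (hconj c h)
    show (Nat.card F.C : ℂ)⁻¹ * ∑ g : G, Fg g = _
    rw [← sum_subset (subset_univ (A ∪ B)) fun g _ hg => hzero g hg, sum_union hdisj, hA, hB,
      sum_map, sum_map]
    simp only [Function.Embedding.coeFn_mk, hA', hB', sum_const, card_univ, nsmul_eq_mul,
      ← Nat.card_eq_fintype_card]
    have : (Nat.card F.C : ℂ) ≠ 0 := Nat.cast_ne_zero.2 Nat.card_pos.ne'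
    field_simp
  have hclass : ∀ g x, Φ (g * x * g⁻¹) = Φ x := fun g x => by
    simp only [hΦ, induced]
    congr 1
    refine Fintype.sum_equiv (Equiv.mulRight g) _ _ fun k => ?_
    have he : k * g * x * (k * g)⁻¹ = k * (g * x * g⁻¹) * k⁻¹ := by group
    simp only [Equiv.coe_mulRight, he]
  -- averages
  have havg : ∀ φ : F.C →* ℂ, φ ≠ 1 → ∑ h, φ h = 0 := fun φ hφ => sum_hom_units_eq_zero φ hφ
  set dh : F.C →* ℂ := (Units.coeHom ℂ).comp δ with hdh
  have hdX : d X ^ 2 ≠ 1 := fun h => hd2 (Units.ext (by simpa [hd] using h))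
  have s1 : ∑ h, d h = 0 := havg dh fun h => hdX (by
    rw [show d X = dh X from rfl, h, MonoidHom.one_apply, one_pow])
  have s2 : ∑ h, d h ^ 2 = 0 := by
    have hne : (powMonoidHom 2).comp dh ≠ 1 := fun h => hdX (DFunLike.congr_fun h X)
    exact havg _ hne
  have s3 : ∑ h, (d h)⁻¹ = 0 := by
    rw [← s1]
    exact Fintype.sum_equiv (Equiv.inv F.C) _ _ fun h => by rw [← hinv]; rfl
  have hcardC : (Nat.card F.C : ℂ) ≠ 0 := Nat.cast_ne_zero.2 Nat.card_pos.ne'
  -- the norm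
  have hnorm : pairing Φ Φ = 3 := by
    rw [hΦ, pairing_induced F.C f hclass, pairing]
    have hterm : ∀ h : F.C,
        f h * Φ ((h⁻¹ : F.C) : G) = 3 - 3 * d h - (d h)⁻¹ + d h ^ 2 := by
      intro h
      by_cases hne : d h = 1
      · simp [hf, hne]
      rw [hval h⁻¹ (by rw [hinv, Ne, inv_eq_one]; exact hne), hinv, inv_inv]
      have h0 : d h ≠ 0 := Units.ne_zero _
      simp only [hf]
      field_simp
      ring
    rw [sum_congr rfl fun h _ => hterm h]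
    simp only [sum_add_distrib, sum_sub_distrib, ← mul_sum, s1, s2, s3, sum_const, card_univ,
      nsmul_eq_mul, ← Nat.card_eq_fintype_card]
    field_simp
    ring
  have hone : pairing Φ (fun _ => 1) = 1 := by
    rw [hΦ, pairing_induced F.C f fun _ _ => rfl, pairing]
    simp only [hf, mul_one, sum_sub_distrib, s1, sum_const, card_univ, nsmul_eq_mul,
      ← Nat.card_eq_fintype_card, sub_zero]
    field_simp
  set σ : Representation ℂ F.C ℂ :=
    ((algebraMap ℂ (Module.End ℂ ℂ)).toMonoidHom.comp (Units.coeHom ℂ)).comp δ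
  have hσ : σ.character = d := funext fun h => by
    show LinearMap.trace ℂ ℂ (algebraMap ℂ (Module.End ℂ ℂ) (δ h : ℂ)) = _
    rw [Algebra.algebraMap_eq_smul_one, map_smul, LinearMap.trace_one, Module.finrank_self]
    simp [hd]
  choose! n hn using fun (χ : G → ℂ) (hχ : χ ∈ irr G) => show ∃ n : ℤ, pairing Φ χ = n by
    obtain ⟨W, -, rfl⟩ := exists_of_mem_irr hχ
    rw [hΦ, pairing_induced F.C f fun g x => W.toRepresentation.char_conj x g]
    obtain ⟨a, ha⟩ := exists_int_average (K := F.C) (W.toRepresentation.comp F.C.subtype)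
    obtain ⟨b, hb⟩ := exists_int_pairing σ (W.toRepresentation.comp F.C.subtype)
    refine ⟨a - b, ?_⟩
    rw [hσ] at hb
    push_cast
    rw [← ha, ← hb, hf, pairing_sub_left]
    rfl
  have hexp : ∀ x, Φ x = ∑ χ ∈ irr G, (n χ : ℂ) * χ x := fun x => by
    rw [expansion hclass x]
    exact sum_congr rfl fun χ hχ => by rw [hn χ hχ]
  have hsq : ∑ χ ∈ irr G, n χ ^ 2 = 3 := by
    have h : pairing Φ Φ = ∑ χ ∈ irr G, (n χ : ℂ) * pairing χ Φ := by
      conv_lhs => arg 1; rw [funext hexp]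
      exact pairing_sum_left (irr G) (fun χ => (n χ : ℂ)) (fun χ => χ) Φ
    rw [hnorm, sum_congr rfl fun χ hχ => by rw [pairing_comm χ Φ, hn χ hχ, ← sq]] at h
    exact_mod_cast h.symm
  have hn1 : n (fun _ => 1) = 1 := by exact_mod_cast (hn _ one_mem_irr).symm.trans hone
  set R := (irr G).erase (fun _ => 1) with hR
  have hsqR : ∑ χ ∈ R, n χ ^ 2 = 2 := by
    rw [← add_sum_erase _ _ (one_mem_irr (G := G)), hn1, ← hR] at hsq
    linarith
  set T := R.filter fun χ => n χ ≠ 0 with hT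
  have hpm : ∀ χ ∈ T, n χ = 1 ∨ n χ = -1 := by
    intro χ hχ
    obtain ⟨hχR, hne⟩ := mem_filter.1 hχ
    have h1 : n χ ^ 2 ≤ 2 := hsqR ▸ single_le_sum (fun ψ _ => sq_nonneg (n ψ)) hχR
    have : -1 ≤ n χ ∧ n χ ≤ 1 := ⟨by nlinarith, by nlinarith⟩
    omega
  have hcard : T.card = 2 := by
    have h1 : ∑ χ ∈ T, n χ ^ 2 = 2 := by
      rw [← hsqR, hT, sum_filter_of_ne fun χ _ hne => ?_]
      exact fun h0 => hne (by rw [h0]; norm_num)
    rw [sum_congr rfl fun χ hχ => show n χ ^ 2 = 1 by rcases hpm χ hχ with h | h <;> rw [h] <;> norm_num,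
      sum_const, nsmul_eq_mul, mul_one] at h1
    exact_mod_cast h1
  obtain ⟨a, b, hab, hTab⟩ := card_eq_two.1 hcard
  have hsum : ∀ φ : (G → ℂ) → ℂ, ∑ χ ∈ irr G, (n χ : ℂ) * φ χ =
      φ (fun _ => 1) + ((n a : ℂ) * φ a + (n b : ℂ) * φ b) := by
    intro φ
    rw [← add_sum_erase _ _ (one_mem_irr (G := G)), hn1, Int.cast_one, one_mul, ← hR,
      ← sum_subset (filter_subset (fun χ => n χ ≠ 0) R) fun χ hχ hno => ?_, ← hT, hTab,
      sum_pair hab]
    rw [show n χ = 0 by by_contra h; exact hno (mem_filter.2 ⟨hχ, h⟩), Int.cast_zero, zero_mul]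
  have hΦval : ∀ x, Φ x = 1 + ((n a : ℂ) * a x + (n b : ℂ) * b x) := fun x =>
    (hexp x).trans (hsum fun χ => χ x)
  have hΦ0 : ∀ h : G, (∀ g (hg : g * h * g⁻¹ ∈ F.C), d ⟨_, hg⟩ = 1) → Φ h = 0 := fun h hh => by
    simp only [hΦ, induced]
    rw [sum_eq_zero fun g _ => ?_, mul_zero]
    split_ifs with hg
    · simp [hf, hh g hg]
    · rfl
  have hΦ1 : Φ 1 = 0 := hΦ0 1 fun g hg => by
    rw [show (⟨_, hg⟩ : F.C) = 1 from Subtype.ext (by simp), hd1]
  have hinvol : ∀ t : G, t ^ 2 = 1 → t ≠ 1 → F.InN t → t = F.z := fun t h2 h1 hN =>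
    F.involution_of_inN hN h2 h1
  have hΦz : Φ F.z = 0 := hΦ0 _ fun g hg => by
    have h1 : g * F.z * g⁻¹ = F.z := hinvol _
      (by rw [conj_pow, F.z_sq, mul_one, mul_inv_cancel])
      (fun h => F.z_ne_one (by rwa [mul_inv_eq_one, mul_eq_left] at h)) (F.inN_of_C hg)
    rw [show (⟨_, hg⟩ : F.C) = ⟨F.z, pow_mem F.x_mem_C M⟩ from Subtype.ext h1]
    simp [hd, hδz]
  have hΦpair : ∀ g₁ g₂ : G, Φ (g₁ * F.z * g₁⁻¹ * (g₂ * F.z * g₂⁻¹)) = 0 := by
    intro g₁ g₂
    refine hΦ0 _ fun g hg => ?_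
    by_contra hne
    set t₁ := (g * g₁) * F.z * (g * g₁)⁻¹ with ht₁
    set t₂ := (g * g₂) * F.z * (g * g₂)⁻¹ with ht₂
    have ht : ∀ k : G, (k * F.z * k⁻¹) ^ 2 = 1 ∧ k * F.z * k⁻¹ ≠ 1 := fun k =>
      ⟨by rw [conj_pow, F.z_sq, mul_one, mul_inv_cancel],
        fun h => F.z_ne_one (by rwa [mul_inv_eq_one, mul_eq_left] at h)⟩
    set h := t₁ * t₂ with hh
    have e : g * (g₁ * F.z * g₁⁻¹ * (g₂ * F.z * g₂⁻¹)) * g⁻¹ = h := by
      rw [hh, ht₁, ht₂]; group
    have hhC : h ∈ F.C := e ▸ hg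
    have hdh1 : d ⟨h, hhC⟩ ≠ 1 := by
      rwa [show (⟨_, hg⟩ : F.C) = ⟨h, hhC⟩ from Subtype.ext e] at hne
    have ht1i : t₁⁻¹ = t₁ := inv_eq_of_mul_eq_one_right (by rw [← sq]; exact (ht _).1)
    have ht2i : t₂⁻¹ = t₂ := inv_eq_of_mul_eq_one_right (by rw [← sq]; exact (ht _).1)
    have t11 : t₁ * t₁ = 1 := by rw [← sq]; exact (ht _).1
    have e2 : t₁ * h * t₁⁻¹ = h⁻¹ := by
      rw [hh, mul_inv_rev t₁ t₂, ht1i, ht2i, ← mul_assoc t₁ t₁ t₂, t11, one_mul]
    have hN1 : F.InN t₁ := hTI h t₁ hhC (by rw [e2]; exact inv_mem hhC) hdh1 (by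
      rw [show (⟨t₁ * h * t₁⁻¹, _⟩ : F.C) = (⟨h, hhC⟩ : F.C)⁻¹ from Subtype.ext e2, hinv, Ne,
        inv_eq_one]
      exact hdh1)
    have hz1 : t₁ = F.z := hinvol _ (ht _).1 (ht _).2 hN1
    have ht2C : t₂ ∈ F.C := by
      rw [show t₂ = t₁⁻¹ * h by rw [hh, inv_mul_cancel_left], hz1]
      exact mul_mem (inv_mem (pow_mem F.x_mem_C M)) hhC
    have hz2 : t₂ = F.z := hinvol _ (ht _).1 (ht _).2 (F.inN_of_C ht2C)
    refine hdh1 ?_
    rw [show (⟨h, hhC⟩ : F.C) = 1 from Subtype.ext (by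
      show h = 1
      rw [hh, hz1, hz2, ← sq, F.z_sq]), hd1]
  have hmem : ∀ χ, χ = a ∨ χ = b → χ ∈ irr G := fun χ h =>
    mem_of_mem_erase (mem_filter.1 (show χ ∈ T by rw [hTab]; simpa using h)).1
  obtain ⟨Wa, hWa, hWae⟩ := exists_of_mem_irr (hmem a (Or.inl rfl))
  obtain ⟨Wb, hWb, hWbe⟩ := exists_of_mem_irr (hmem b (Or.inr rfl))
  haveI := hWa
  haveI := hWb
  have hpairs : ((Nat.card G : ℂ) ^ 2 + ((n a : ℂ) *
      ∑ g₁ : G, ∑ g₂ : G, a (g₁ * F.z * g₁⁻¹ * (g₂ * F.z * g₂⁻¹)) + (n b : ℂ) *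
      ∑ g₁ : G, ∑ g₂ : G, b (g₁ * F.z * g₁⁻¹ * (g₂ * F.z * g₂⁻¹)))) = 0 := by
    have h : ∑ g₁ : G, ∑ g₂ : G, Φ (g₁ * F.z * g₁⁻¹ * (g₂ * F.z * g₂⁻¹)) = 0 :=
      sum_eq_zero fun g₁ _ => sum_eq_zero fun g₂ _ => hΦpair g₁ g₂
    simp only [hΦval, sum_add_distrib, ← mul_sum, sum_const, card_univ, nsmul_eq_mul, mul_one,
      ← Nat.card_eq_fintype_card, ← sq] at h
    exact h
  have hSa := sum_pairs Wa.toRepresentation F.z
  have hSb := sum_pairs Wb.toRepresentation F.z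
  rw [hWae] at hSa
  rw [hWbe] at hSb
  obtain ⟨A, hA0, hA⟩ := irr_one (show a ∈ irr G from hWae ▸ character_mem_irr Wa.toRepresentation)
  obtain ⟨B, hB0, hB⟩ := irr_one (show b ∈ irr G from hWbe ▸ character_mem_irr Wb.toRepresentation)
  rw [hA] at hSa
  rw [hB] at hSb
  have e1 : (1 : ℂ) + ((n a : ℂ) * A + (n b : ℂ) * B) = 0 := by rw [← hA, ← hB, ← hΦval, hΦ1]
  have ez : (1 : ℂ) + ((n a : ℂ) * a F.z + (n b : ℂ) * b F.z) = 0 := by rw [← hΦval, hΦz]
  have epair : ((A : ℂ) * B) + ((n a : ℂ) * B * a F.z ^ 2 + (n b : ℂ) * A * b F.z ^ 2) = 0 := by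
    have hN : (Nat.card G : ℂ) ^ 2 ≠ 0 := pow_ne_zero _ (Nat.cast_ne_zero.2 Nat.card_pos.ne')
    refine (mul_eq_zero.1 (?_ : (Nat.card G : ℂ) ^ 2 * _ = 0)).resolve_left hN
    linear_combination ((A : ℂ) * B) * hpairs - ((n a : ℂ) * B) * hSa - ((n b : ℂ) * A) * hSb
  have hAC : (A : ℂ) ≠ 0 := Nat.cast_ne_zero.2 hA0
  have hBC : (B : ℂ) ≠ 0 := Nat.cast_ne_zero.2 hB0
  have hval2 : a F.z = A ∧ b F.z = B := by
    have memT : ∀ χ, χ = a ∨ χ = b → χ ∈ T := fun χ h => by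
      rw [hTab, mem_insert, mem_singleton]; exact h
    rcases hpm a (memT a (Or.inl rfl)) with ha | ha <;>
      rcases hpm b (memT b (Or.inr rfl)) with hb | hb <;> rw [ha, hb] at e1 ez epair <;>
      push_cast at e1 ez epair
    · have : ((1 + (A + B) : ℕ) : ℂ) = 0 := by push_cast; linear_combination e1
      exact absurd (Nat.cast_eq_zero.1 this) (by omega)
    · have eb : b F.z = 1 + a F.z := by linear_combination -ez
      have hBA : (B : ℂ) = 1 + A := by linear_combination -e1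
      have h0 : (a F.z - A) ^ 2 = 0 := by
        rw [eb, hBA] at epair
        linear_combination epair
      have h1 := sub_eq_zero.1 (pow_eq_zero_iff two_ne_zero |>.1 h0)
      exact ⟨h1, by rw [eb, h1, hBA]⟩
    · have ea : a F.z = 1 + b F.z := by linear_combination -ez
      have hAB : (A : ℂ) = 1 + B := by linear_combination -e1
      have h0 : (b F.z - B) ^ 2 = 0 := by
        rw [ea, hAB] at epair
        linear_combination epair
      have h1 := sub_eq_zero.1 (pow_eq_zero_iff two_ne_zero |>.1 h0)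
      exact ⟨by rw [ea, h1, hAB], h1⟩
    · have h1 : ((A + B : ℕ) : ℂ) = ((1 : ℕ) : ℂ) := by push_cast; linear_combination -e1
      have := Nat.cast_inj.1 h1
      omega
  refine ⟨MonoidHom.ker Wa.toRepresentation ⊓ MonoidHom.ker Wb.toRepresentation, ⟨?_⟩,
    ⟨?_, ?_⟩, fun hu => ?_⟩
  · rintro x ⟨h1, h2⟩ g
    have key : ∀ {W : Subrepresentation (FA.Solvable.regular G)}, W.toRepresentation x = 1 →
        W.toRepresentation (g * x * g⁻¹) = 1 := fun {W} h => by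
      rw [map_mul, map_mul, h, mul_one, ← map_mul, mul_inv_cancel, map_one]
    exact ⟨key h1, key h2⟩
  · exact apply_eq_one _ (by rw [hWae, hval2.1, hA])
  · exact apply_eq_one _ (by rw [hWbe, hval2.2, hB])
  · have hua : a F.u = A := by
      rw [← hWae, ← hA, ← hWae]
      show LinearMap.trace ℂ _ _ = LinearMap.trace ℂ _ _
      rw [show Wa.toRepresentation F.u = 1 from hu.1, map_one Wa.toRepresentation]
    have hub : b F.u = B := by
      rw [← hWbe, ← hB, ← hWbe]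
      show LinearMap.trace ℂ _ _ = LinearMap.trace ℂ _ _
      rw [show Wb.toRepresentation F.u = 1 from hu.2, map_one Wb.toRepresentation]
    have h0 : Φ F.u = 0 := by rw [hΦval, hua, hub, e1]
    have huC : F.u ∈ F.C := pow_mem F.x_mem_C _
    have hdu1 : d ⟨F.u, huC⟩ ≠ 1 := fun h => hdu (Units.ext (by
      rw [← map_pow]; exact h))
    have h2 := hval ⟨F.u, huC⟩ hdu1
    rw [show ((⟨F.u, huC⟩ : F.C) : G) = F.u from rfl, h0] at h2
    have hd0 : d ⟨F.u, huC⟩ ≠ 0 := Units.ne_zero _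
    have h3 : (d ⟨F.u, huC⟩ - 1) ^ 2 = 0 := by
      field_simp at h2
      linear_combination h2
    exact hdu1 (sub_eq_zero.1 (pow_eq_zero_iff two_ne_zero |>.1 h3))

end FA.BrauerSuzuki

end
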