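import Fermat.Agent.ThompsonTransfer.PComp
import Mathlib.GroupTheory.SpecificGroups.Quaternion
import Mathlib.GroupTheory.Transfer

/-!
# Quaternion Sylow subgroups

A Sylow `2`-subgroup generated by `x` of order `2 M` and `y`, with `y x y⁻¹ = x⁻¹` and `y² = x ^ M`,
`M` a power of `2` divisible by `4`.  Its involution `z` is the only one in every `2`-subgroup
containing it; the centraliser `C` of `u = x ^ (M / 2)` has cyclic Sylow subgroup `⟨x⟩`; an
involution normalising `⟨u⟩` is `z`.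
-/

set_option autoImplicit false
set_option linter.style.haveILetI false

namespace FA.BrauerSuzuki

open Subgroup

/-- A generalised quaternion Sylow `2`-subgroup of order `4 M`, by generators. -/
structure Frame (G : Type*) [Group G] (M : ℕ) where
  /-- the Sylow subgroup -/
  S : Sylow 2 G
  /-- the generator of the cyclic subgroup -/
  x : G
  /-- the element inverting `x` -/
  y : G
  four_dvd : 4 ∣ M
  two_pow : ∃ k, M = 2 ^ k
  x_mem : x ∈ S
  y_mem : y ∈ S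
  order_x : orderOf x = 2 * M
  conj_x : y * x * y⁻¹ = x⁻¹
  y_sq : y ^ 2 = x ^ M
  generated : ∀ s ∈ S, ∃ i : ℕ, s = x ^ i ∨ s = y * x ^ i

theorem exists_frame {G : Type*} [Group G] (S : Sylow 2 G) {k : ℕ} (hk : 2 ≤ k)
    (e : (S : Subgroup G) ≃* QuaternionGroup (2 ^ k)) : Nonempty (Frame G (2 ^ k)) := by
  set M := 2 ^ k with hM
  haveI : NeZero M := ⟨by positivity⟩
  set ι : QuaternionGroup M →* G := (S : Subgroup G).subtype.comp e.symm.toMonoidHom with hι
  have hinj : Function.Injective ι := Subtype.val_injective.comp e.symm.injective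
  refine ⟨⟨S, ι (.a 1), ι (.xa 0), ?_, ⟨k, rfl⟩, (e.symm (.a 1)).2, (e.symm (.xa 0)).2, ?_, ?_, ?_,
    fun s hs => ?_⟩⟩
  · exact (pow_dvd_pow 2 hk : 2 ^ 2 ∣ 2 ^ k)
  · rw [orderOf_injective ι hinj, QuaternionGroup.orderOf_a_one]
  · rw [← map_inv, ← map_mul, ← map_mul, ← map_inv]
    refine congrArg ι ?_
    rw [mul_inv_eq_iff_eq_mul, QuaternionGroup.xa_mul_a]
    show _ = QuaternionGroup.a (-1 : ZMod (2 * M)) * QuaternionGroup.xa 0
    rw [QuaternionGroup.a_mul_xa]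
    simp
  · rw [← map_pow, ← map_pow, QuaternionGroup.xa_sq, QuaternionGroup.a_one_pow]
  · haveI : NeZero (2 * M) := ⟨by positivity⟩
    have hpow : ∀ i : ZMod (2 * M), ι (.a i) = ι (.a 1) ^ i.val := fun i => by
      rw [← map_pow, QuaternionGroup.a_one_pow, ZMod.natCast_zmod_val]
    obtain ⟨q, hq⟩ : ∃ q, e.symm q = ⟨s, hs⟩ := ⟨e ⟨s, hs⟩, e.symm_apply_apply _⟩
    have hs' : ι q = s := congrArg Subtype.val hq
    rcases q with i | i
    · exact ⟨i.val, Or.inl (hs'.symm.trans (hpow i))⟩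
    · refine ⟨i.val, Or.inr ?_⟩
      rw [← hs', ← hpow, ← map_mul, QuaternionGroup.xa_mul_a, zero_add]

variable {G : Type*} [Group G] [Finite G] {M : ℕ} (F : Frame G M)

/-- The involution. -/
def Frame.z : G := F.x ^ M

/-- An element of order `4` of the cyclic subgroup. -/
def Frame.u : G := F.x ^ (M / 2)

/-- The centraliser of `u`. -/
def Frame.C : Subgroup G := centralizer {F.u}

omit [Finite G] in
include F in
theorem Frame.M_pos : 0 < M := by
  obtain ⟨k, rfl⟩ := F.two_pow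
  positivity

omit [Finite G] in
include F in
theorem Frame.four_le : 4 ≤ M := Nat.le_of_dvd F.M_pos F.four_dvd

omit [Finite G] in
theorem Frame.u_sq : F.u ^ 2 = F.z := by
  rw [Frame.u, Frame.z, ← pow_mul, Nat.div_mul_cancel (dvd_trans ⟨2, rfl⟩ F.four_dvd)]

omit [Finite G] in
theorem Frame.pow_eq_one_iff {i : ℕ} : F.x ^ i = 1 ↔ 2 * M ∣ i := by
  rw [← orderOf_dvd_iff_pow_eq_one, F.order_x]

omit [Finite G] in
theorem Frame.z_ne_one : F.z ≠ 1 := fun h => by
  have h1 := Nat.le_of_dvd F.M_pos (F.pow_eq_one_iff.1 h)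
  have := F.M_pos
  omega

omit [Finite G] in
theorem Frame.z_sq : F.z ^ 2 = 1 := by
  rw [Frame.z, ← pow_mul, F.pow_eq_one_iff, mul_comm]

omit [Finite G] in
theorem Frame.u_pow_four : F.u ^ 4 = 1 := by
  rw [show 4 = 2 * 2 from rfl, pow_mul, F.u_sq, F.z_sq]

omit [Finite G] in
theorem Frame.u_ne_inv : F.u ≠ F.u⁻¹ := fun h => F.z_ne_one (by
  rw [← F.u_sq, sq]
  nth_rewrite 2 [h]
  exact mul_inv_cancel _)

omit [Finite G] in
theorem Frame.conj_pow_x (i : ℕ) : F.y * F.x ^ i * F.y⁻¹ = (F.x ^ i)⁻¹ := by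
  rw [← conj_pow, F.conj_x, inv_pow]

omit [Finite G] in
theorem Frame.conj_u : F.y * F.u * F.y⁻¹ = F.u⁻¹ := F.conj_pow_x _

omit [Finite G] in
theorem Frame.xy_sq (i : ℕ) : (F.y * F.x ^ i) ^ 2 = F.z := by
  have h : F.x ^ i * F.y = F.y * (F.x ^ i)⁻¹ := (mul_inv_eq_iff_eq_mul.1
    (by rw [← conj_inv, F.conj_pow_x, inv_inv] :
      F.y * (F.x ^ i)⁻¹ * F.y⁻¹ = F.x ^ i)).symm
  calc (F.y * F.x ^ i) ^ 2 = F.y * (F.x ^ i * F.y) * F.x ^ i := by rw [sq]; group
    _ = F.y ^ 2 := by rw [h, sq]; group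
    _ = F.z := F.y_sq

omit [Finite G] in
theorem Frame.u_mem : F.u ∈ F.S := pow_mem F.x_mem _

omit [Finite G] in
theorem Frame.z_mem : F.z ∈ F.S := pow_mem F.x_mem _

omit [Finite G] in
theorem Frame.involution_S {s : G} (hs : s ∈ F.S) (h2 : s ^ 2 = 1) : s = 1 ∨ s = F.z := by
  obtain ⟨i, rfl | rfl⟩ := F.generated s hs
  · rw [← pow_mul, F.pow_eq_one_iff, mul_comm i 2] at h2
    obtain ⟨q, rfl⟩ : M ∣ i := Nat.dvd_of_mul_dvd_mul_left two_pos h2
    rw [pow_mul]
    rcases Nat.even_or_odd' q with ⟨t, rfl | rfl⟩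
    · exact Or.inl (by rw [pow_mul, ← Frame.z, F.z_sq, one_pow])
    · exact Or.inr (by rw [pow_succ, pow_mul, ← Frame.z, F.z_sq, one_pow, one_mul])
  · exact absurd ((F.xy_sq i).symm.trans h2) F.z_ne_one

/-- The `2`-subgroups embed into the Sylow subgroup by conjugation. -/
theorem Frame.exists_conj_le {T : Subgroup G} (hT : IsPGroup 2 T) :
    ∃ g : G, ∀ t ∈ T, g * t * g⁻¹ ∈ F.S := by
  obtain ⟨P, hP⟩ := hT.exists_le_sylow
  haveI : Fact (Nat.Prime 2) := ⟨Nat.prime_two⟩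
  obtain ⟨g, hg⟩ := MulAction.exists_smul_eq G P F.S
  refine ⟨g, fun t ht => ?_⟩
  rw [← hg]
  exact ⟨t, hP ht, rfl⟩

/-- **The involution is unique** in every `2`-subgroup containing it. -/
theorem Frame.involution {T : Subgroup G} (hT : IsPGroup 2 T) (hz : F.z ∈ T) {t : G} (ht : t ∈ T)
    (h2 : t ^ 2 = 1) : t = 1 ∨ t = F.z := by
  obtain ⟨g, hg⟩ := F.exists_conj_le hT
  rcases eq_or_ne t 1 with h | h
  · exact Or.inl h
  refine Or.inr ?_
  have h1 : g * t * g⁻¹ = F.z := (F.involution_S (hg t ht) (by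
    rw [conj_pow, h2, mul_one, mul_inv_cancel])).resolve_left fun he => h (by
      rwa [mul_inv_eq_one, mul_eq_left] at he)
  have h3 : g * F.z * g⁻¹ = F.z := (F.involution_S (hg _ hz) (by
    rw [conj_pow, F.z_sq, mul_one, mul_inv_cancel])).resolve_left fun he => F.z_ne_one (by
      rwa [mul_inv_eq_one, mul_eq_left] at he)
  exact mul_left_cancel (mul_right_cancel (h1.trans h3.symm))

omit [Finite G] in
theorem Frame.x_mem_C : F.x ∈ F.C :=
  mem_centralizer_singleton_iff.2 ((Commute.refl F.x).pow_right _).eq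

omit [Finite G] in
theorem Frame.zpowers_le_C : zpowers F.x ≤ F.C := zpowers_le.2 F.x_mem_C

omit [Finite G] in
theorem Frame.y_notMem_C : F.y ∉ F.C := fun h => F.u_ne_inv (by
  rw [← F.conj_u, mem_centralizer_singleton_iff.1 h, mul_inv_cancel_right])

omit [Finite G] in
theorem Frame.z_commute {g : G} (hg : g ∈ F.C) : g * F.z = F.z * g := by
  rw [← F.u_sq]
  exact ((show Commute g F.u from mem_centralizer_singleton_iff.1 hg).pow_right 2).eq

omit [Finite G] in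
theorem Frame.isPGroup_zpowers : IsPGroup 2 (zpowers F.x) := F.S.2.to_le (zpowers_le.2 F.x_mem)

/-- **A `2`-subgroup containing `x` and centralising `u` is `⟨x⟩`.** -/
theorem Frame.le_zpowers {T : Subgroup G} (hT : IsPGroup 2 T) (hx : F.x ∈ T) (hTC : T ≤ F.C) :
    T ≤ zpowers F.x := by
  obtain ⟨g, hg⟩ := F.exists_conj_le hT
  obtain ⟨j, hj | hj⟩ := F.generated _ (hg F.x hx)
  · have he : (zpowers F.x).map (MulAut.conj g).toMonoidHom = zpowers F.x := by
      refine eq_of_le_of_card_ge ?_ (card_map_of_injective (MulAut.conj g).injective).ge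
      rw [MonoidHom.map_zpowers, zpowers_le]
      exact ⟨j, by simpa using hj.symm⟩
    intro t ht
    obtain ⟨i, hi | hi⟩ := F.generated _ (hg t ht)
    · have h1 : g * t * g⁻¹ ∈ (zpowers F.x).map (MulAut.conj g).toMonoidHom := by
        rw [he, hi]; exact npow_mem_zpowers _ _
      obtain ⟨w, hw, hwt⟩ := h1
      have : w = t := mul_left_cancel (mul_right_cancel hwt)
      exact this ▸ hw
    · exfalso
      have hcomm := mem_centralizer_singleton_iff.1 (hTC ht)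
      have hu' : g * F.u * g⁻¹ = F.x ^ (j * (M / 2)) := by
        rw [Frame.u, ← conj_pow, hj, ← pow_mul]
      have h1 : Commute (F.y * F.x ^ i) (F.x ^ (j * (M / 2))) := by
        rw [← hi, ← hu']
        show g * t * g⁻¹ * (g * F.u * g⁻¹) = g * F.u * g⁻¹ * (g * t * g⁻¹)
        calc g * t * g⁻¹ * (g * F.u * g⁻¹) = g * (t * F.u) * g⁻¹ := by group
          _ = g * (F.u * t) * g⁻¹ := by rw [hcomm]
          _ = _ := by group
      have h2 : Commute (F.x ^ i) (F.x ^ (j * (M / 2))) := (Commute.refl F.x).pow_pow _ _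
      have h3 : Commute F.y (F.x ^ (j * (M / 2))) := by
        have := h1.mul_left h2.inv_left
        rwa [mul_inv_cancel_right] at this
      have h4 := F.conj_pow_x (j * (M / 2))
      rw [h3.eq, mul_inv_cancel_right, ← hu', conj_inv] at h4
      exact F.u_ne_inv (mul_left_cancel (mul_right_cancel h4))
  · exfalso
    have h1 : (g * F.x * g⁻¹) ^ 4 = 1 := by
      rw [hj, show 4 = 2 * 2 from rfl, pow_mul, F.xy_sq, F.z_sq]
    rw [conj_pow, mul_inv_eq_one, mul_eq_left, F.pow_eq_one_iff] at h1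
    have h2 := Nat.le_of_dvd (by norm_num) h1
    have := F.four_le
    omega

/-- The Sylow subgroup of `C`. -/
def Frame.sylowC : Sylow 2 F.C where
  toSubgroup := (zpowers F.x).subgroupOf F.C
  isPGroup' := F.isPGroup_zpowers.comap_subtype
  is_maximal' {Q} hQ hle := by
    refine le_antisymm (fun q hq => ?_) hle
    exact mem_subgroupOf.2 (F.le_zpowers (hQ.map F.C.subtype)
      ⟨⟨F.x, F.x_mem_C⟩, hle (mem_subgroupOf.2 (mem_zpowers F.x)), rfl⟩ (map_subtype_le Q)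
      ⟨q, hq, rfl⟩)

theorem Frame.sylowC_isCyclic : IsCyclic (F.sylowC : Subgroup F.C) :=
  isCyclic_of_surjective (subgroupOfEquivOfLe F.zpowers_le_C).symm.toMonoidHom
    (subgroupOfEquivOfLe F.zpowers_le_C).symm.surjective

/-- The `2`-elements of `C` are conjugate in `C` into `⟨x⟩`. -/
theorem Frame.exists_conj_zpowers {a : G} (ha : a ∈ F.C) {k : ℕ} (hk : a ^ 2 ^ k = 1) :
    ∃ c ∈ F.C, c * a * c⁻¹ ∈ zpowers F.x := by
  haveI : Fact (Nat.Prime 2) := ⟨Nat.prime_two⟩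
  set a' : F.C := ⟨a, ha⟩
  have hp : IsPGroup 2 (zpowers a') := IsPGroup.of_card_dvd_pow (n := k) (by
    rw [Nat.card_zpowers, ← orderOf_coe]
    exact orderOf_dvd_of_pow_eq_one hk)
  obtain ⟨P, hP⟩ := hp.exists_le_sylow
  obtain ⟨c, hc⟩ := MulAction.exists_smul_eq F.C P F.sylowC
  refine ⟨c, c.2, ?_⟩
  have h1 : (MulAut.conj c) a' ∈ (c • P : Sylow 2 F.C) := ⟨a', hP (mem_zpowers a'), rfl⟩
  rw [hc] at h1
  exact h1

omit [Finite G] in
theorem Frame.root_four {w : G} (hw : w ∈ zpowers F.x) (h4 : w ^ 4 = 1) (h2 : w ^ 2 ≠ 1) :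
    w = F.u ∨ w = F.u⁻¹ := by
  obtain ⟨i, rfl⟩ := hw
  simp only at h4 h2 ⊢
  have hM : M = 2 * (M / 2) := (Nat.mul_div_cancel' (dvd_trans ⟨2, rfl⟩ F.four_dvd)).symm
  have h5 : ((2 * M : ℕ) : ℤ) ∣ i * 4 := by
    rw [← F.order_x, orderOf_dvd_iff_zpow_eq_one, zpow_mul]
    exact_mod_cast h4
  obtain ⟨r, hr⟩ : ((M / 2 : ℕ) : ℤ) ∣ i := by
    obtain ⟨c, hc⟩ := h5
    refine ⟨c, ?_⟩
    rw [hM] at hc
    push_cast at hc ⊢
    linarith
  have hi : F.x ^ i = F.u ^ r := by rw [hr, zpow_mul, zpow_natCast, Frame.u]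
  rw [hi] at h2 ⊢
  have hu4 : F.u ^ (4 : ℤ) = 1 := by exact_mod_cast F.u_pow_four
  have hred : F.u ^ r = F.u ^ (r % 4) := by
    conv_lhs => rw [← Int.emod_add_mul_ediv r 4, zpow_add, zpow_mul, hu4, one_zpow, mul_one]
  rw [hred] at h2 ⊢
  have hlt := Int.emod_lt_of_pos r (show (0 : ℤ) < 4 by norm_num)
  have hge := Int.emod_nonneg r (show (4 : ℤ) ≠ 0 by norm_num)
  interval_cases h : r % 4
  · exact absurd (by rw [zpow_zero, one_pow]) h2
  · exact Or.inl (zpow_one _)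
  · refine absurd ?_ h2
    rw [zpow_ofNat, F.u_sq, F.z_sq]
  · refine Or.inr (eq_inv_of_mul_eq_one_left ?_)
    rw [zpow_ofNat, ← pow_succ]
    exact F.u_pow_four

/-- **The `2`-parts of the elements of `C`.** -/
theorem Frame.two_part {h : G} (hh : h ∈ F.C) :
    ∃ a b : G, a ∈ F.C ∧ b ∈ F.C ∧ h = a * b ∧ ¬ 2 ∣ orderOf b ∧
      (a = 1 ∨ a = F.z ∨ ∃ e : ℕ, h ^ e = F.u ∨ h ^ e = F.u⁻¹) := by
  haveI : Fact (Nat.Prime 2) := ⟨Nat.prime_two⟩
  obtain ⟨a, b, ha, hb, hab, ⟨k, hk⟩, hbr⟩ := FA.Thompson.exists_decomp (p := 2) h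
  have haC := zpowers_le.2 hh ha
  refine ⟨a, b, haC, zpowers_le.2 hh hb, hab, hbr, ?_⟩
  obtain ⟨c, hc, hca⟩ := F.exists_conj_zpowers haC hk
  by_cases ha2 : a ^ 2 = 1
  · rcases F.involution_S (zpowers_le.2 F.x_mem hca) (by
      rw [conj_pow, ha2, mul_one, mul_inv_cancel]) with h1 | h1
    · rw [mul_inv_eq_one, mul_eq_left] at h1
      exact Or.inl h1
    · refine Or.inr (Or.inl ?_)
      rw [mul_inv_eq_iff_eq_mul, ← F.z_commute hc] at h1
      exact mul_left_cancel h1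
  refine Or.inr (Or.inr ?_)
  obtain ⟨j, -, hj⟩ := (Nat.dvd_prime_pow Nat.prime_two).1 (orderOf_dvd_of_pow_eq_one hk)
  have hj2 : 2 ≤ j := by
    by_contra hlt
    exact ha2 (orderOf_dvd_iff_pow_eq_one.1 (hj ▸ (pow_dvd_pow 2 (by omega : j ≤ 1))))
  set w := a ^ 2 ^ (j - 2) with hw
  have hw4 : w ^ 4 = 1 := by
    rw [hw, ← pow_mul, show 2 ^ (j - 2) * 4 = 2 ^ j by
      rw [show (4 : ℕ) = 2 ^ 2 from rfl, ← pow_add, Nat.sub_add_cancel hj2], ← hj,
      pow_orderOf_eq_one]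
  have hw2 : w ^ 2 ≠ 1 := fun he => by
    rw [hw, ← pow_mul] at he
    have h1 := orderOf_dvd_of_pow_eq_one he
    rw [hj, ← pow_succ] at h1
    have := (Nat.pow_dvd_pow_iff_le_right (by norm_num : 1 < 2)).1 h1
    omega
  have hwx : c * w * c⁻¹ ∈ zpowers F.x := by
    rw [hw, ← conj_pow]; exact pow_mem hca _
  have h3 := F.root_four hwx (by rw [conj_pow, hw4, mul_one, mul_inv_cancel]) fun he => hw2 (by
    rwa [conj_pow, mul_inv_eq_one, mul_eq_left] at he)
  have hcu : c * F.u * c⁻¹ = F.u := by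
    rw [mem_centralizer_singleton_iff.1 hc, mul_inv_cancel_right]
  obtain ⟨e, he⟩ := (mem_powers_iff_mem_zpowers.2 (pow_mem ha (2 ^ (j - 2))) : w ∈ Submonoid.powers h)
  simp only at he
  refine ⟨e, h3.imp (fun h4 => ?_) fun h4 => ?_⟩
  · rw [← hcu] at h4
    exact he.trans (mul_left_cancel (mul_right_cancel h4))
  · rw [← hcu, conj_inv] at h4
    exact he.trans (mul_left_cancel (mul_right_cancel h4))

/-- `g` normalises `⟨u⟩`. -/
def Frame.InN (g : G) : Prop := g * F.u * g⁻¹ = F.u ∨ g * F.u * g⁻¹ = F.u⁻¹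

omit [Finite G] in
theorem Frame.inN_cases {g : G} (hg : F.InN g) : g ∈ F.C ∨ F.y⁻¹ * g ∈ F.C := by
  rcases hg with hg | hg
  · exact Or.inl (mem_centralizer_singleton_iff.2 (mul_inv_eq_iff_eq_mul.1 hg))
  · refine Or.inr (mem_centralizer_singleton_iff.2 (mul_inv_eq_iff_eq_mul.1 ?_))
    calc F.y⁻¹ * g * F.u * (F.y⁻¹ * g)⁻¹ = F.y⁻¹ * (g * F.u * g⁻¹) * F.y := by group
      _ = F.y⁻¹ * (F.y * F.u * F.y⁻¹) * F.y := by rw [hg, F.conj_u]
      _ = F.u := by group

omit [Finite G] in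
theorem Frame.inN_of_C {g : G} (hg : g ∈ F.C) : F.InN g :=
  Or.inl (by rw [mem_centralizer_singleton_iff.1 hg, mul_inv_cancel_right])

omit [Finite G] in
theorem Frame.inN_y_mul {g : G} (hg : g ∈ F.C) : F.InN (F.y * g) := Or.inr (by
  rw [show F.y * g * F.u * (F.y * g)⁻¹ = F.y * (g * F.u * g⁻¹) * F.y⁻¹ by group,
    mem_centralizer_singleton_iff.1 hg, mul_inv_cancel_right, F.conj_u])

omit [Finite G] in
theorem Frame.y_conj_C {g : G} (hg : g ∈ F.C) : F.y * g * F.y⁻¹ ∈ F.C := by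
  refine mem_centralizer_singleton_iff.2 ?_
  have h1 : Commute g F.u := mem_centralizer_singleton_iff.1 hg
  have h2 := (h1.inv_right).map (MulAut.conj F.y).toMonoidHom
  show F.y * g * F.y⁻¹ * F.u = F.u * (F.y * g * F.y⁻¹)
  rw [show (MulAut.conj F.y).toMonoidHom g = F.y * g * F.y⁻¹ from rfl,
    show (MulAut.conj F.y).toMonoidHom F.u⁻¹ = F.y * F.u⁻¹ * F.y⁻¹ from rfl, ← conj_inv,
    F.conj_u, inv_inv] at h2
  exact h2

/-- **An involution normalising `⟨u⟩` is `z`.** -/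
theorem Frame.involution_of_inN {t : G} (ht : F.InN t) (h2 : t ^ 2 = 1) (h1 : t ≠ 1) :
    t = F.z := by
  haveI : Fact (Nat.Prime 2) := ⟨Nat.prime_two⟩
  have hle : zpowers t ≤ normalizer (zpowers F.u : Set G) := by
    rw [zpowers_le, mem_normalizer_iff_map_conj_eq]
    refine eq_of_le_of_card_ge ?_ (card_map_of_injective (MulAut.conj t).injective).ge
    rw [MonoidHom.map_zpowers, zpowers_le]
    rcases ht with h | h
    · show t * F.u * t⁻¹ ∈ zpowers F.u
      rw [h]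
      exact mem_zpowers _
    · show t * F.u * t⁻¹ ∈ zpowers F.u
      rw [h]
      exact inv_mem (mem_zpowers _)
  have hT : IsPGroup 2 (zpowers F.u ⊔ zpowers t : Subgroup G) :=
    (F.S.2.to_le (zpowers_le.2 F.u_mem)).to_sup_of_normal_left'
      (IsPGroup.of_card_dvd_pow (n := 1) (by
        rw [Nat.card_zpowers, pow_one]; exact orderOf_dvd_of_pow_eq_one h2)) hle
  exact (F.involution hT (mem_sup_left (F.u_sq ▸ pow_mem (mem_zpowers _) 2))
    (mem_sup_right (mem_zpowers t)) h2).resolve_left h1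

end FA.BrauerSuzuki
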