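import Fermat.Agent.BrauerSuzuki.Characters
import Fermat.Agent.ThompsonTransfer.Frobenius

/-!
# The Brauer–Suzuki theorem

The normal subgroup containing `z` but not `u` meets the Sylow subgroup in `{1, z}`, so it has a
normal `2`-complement of index `2`, modulo which `z` is central.
-/

set_option autoImplicit false
set_option linter.style.haveILetI false

namespace FA.BrauerSuzuki

open Subgroup FA.Thompson

variable {G : Type*} [Group G] [Finite G] {M : ℕ} (F : Frame G M)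

omit [Finite G] in
/-- A normal subgroup without `u` meets the Sylow subgroup in `{1, z}`. -/
theorem Frame.inf_sylow {L : Subgroup G} (hL : L.Normal) (hu : F.u ∉ L) {s : G} (hs : s ∈ F.S)
    (hsL : s ∈ L) : s = 1 ∨ s = F.z := by
  obtain ⟨i, rfl | rfl⟩ := F.generated s hs
  · by_cases h2 : (F.x ^ i) ^ 2 = 1
    · exact F.involution_S hs h2
    exfalso
    obtain ⟨k, hk⟩ := F.two_pow
    obtain ⟨j, -, hj⟩ : ∃ j ≤ k + 1, orderOf (F.x ^ i) = 2 ^ j := by
      refine (Nat.dvd_prime_pow Nat.prime_two).1 ?_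
      rw [pow_succ', ← hk, ← F.order_x]
      exact orderOf_pow_dvd i
    have hj2 : 2 ≤ j := by
      by_contra hlt
      exact h2 (orderOf_dvd_iff_pow_eq_one.1 (hj ▸ (pow_dvd_pow 2 (by omega : j ≤ 1))))
    set w := (F.x ^ i) ^ 2 ^ (j - 2) with hw
    have hw4 : w ^ 4 = 1 := by
      rw [hw, ← pow_mul _ _ 4, show 2 ^ (j - 2) * 4 = 2 ^ j by
        rw [show (4 : ℕ) = 2 ^ 2 from rfl, ← pow_add, Nat.sub_add_cancel hj2], ← hj,
        pow_orderOf_eq_one]
    have hw2 : w ^ 2 ≠ 1 := fun he => by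
      rw [hw, ← pow_mul _ _ 2] at he
      have h1 := orderOf_dvd_of_pow_eq_one he
      rw [hj, ← pow_succ] at h1
      have := (Nat.pow_dvd_pow_iff_le_right (by norm_num : 1 < 2)).1 h1
      omega
    have hwL : w ∈ L := pow_mem hsL _
    rcases F.root_four (pow_mem (npow_mem_zpowers F.x i) _) hw4 hw2 with h | h
    · exact hu (h ▸ hwL)
    · exact hu (inv_mem_iff.1 (h ▸ hwL))
  · exfalso
    refine hu ?_
    have h1 : F.x * (F.y * F.x ^ i) * F.x⁻¹ * (F.y * F.x ^ i)⁻¹ ∈ L :=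
      L.mul_mem (hL.conj_mem _ hsL F.x) (L.inv_mem hsL)
    have he : F.x * (F.y * F.x ^ i) * F.x⁻¹ * (F.y * F.x ^ i)⁻¹ =
        F.x * (F.y * F.x * F.y⁻¹)⁻¹ := by group
    rw [he, F.conj_x, inv_inv, ← sq] at h1
    have h2 := pow_mem h1 (M / 4)
    rw [← pow_mul, show 2 * (M / 4) = M / 2 by have := F.four_dvd; omega] at h2
    exact h2

/-- A non-trivial element of a `2`-subgroup of `L` is conjugate to `z`, uniformly. -/
theorem Frame.eq_of_le {L : Subgroup G} (hL : L.Normal) (hu : F.u ∉ L) {T : Subgroup G}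
    (hT : IsPGroup 2 T) (hTL : T ≤ L) {t t' : G} (ht : t ∈ T) (ht' : t' ∈ T) (h : t ≠ 1)
    (h' : t' ≠ 1) : t = t' := by
  obtain ⟨g, hg⟩ := F.exists_conj_le hT
  have key : ∀ a ∈ T, a ≠ 1 → g * a * g⁻¹ = F.z := fun a ha hne =>
    (F.inf_sylow hL hu (hg a ha) (hL.conj_mem a (hTL ha) g)).resolve_left fun he => hne (by
      rwa [mul_inv_eq_one, mul_eq_left] at he)
  exact mul_left_cancel (mul_right_cancel ((key t ht h).trans (key t' ht' h').symm))

/-- **Brauer–Suzuki**: `z` is central modulo a normal subgroup of odd order. -/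
theorem Frame.exists_odd_normal :
    ∃ N : Subgroup G, N.Normal ∧ ¬ 2 ∣ Nat.card N ∧ ∀ g, g * F.z * g⁻¹ * F.z⁻¹ ∈ N := by
  haveI : Fact (Nat.Prime 2) := ⟨Nat.prime_two⟩
  haveI := Fintype.ofFinite G
  obtain ⟨L, hL, hzL, huL⟩ := F.exists_normal
  haveI := hL
  have hlc : LocalControl 2 L := by
    intro X hX g hg _
    rw [mem_centralizer_iff]
    intro x hx
    rcases eq_or_ne x 1 with rfl | hne
    · rw [one_mul, mul_one]
    have hgx : g * x * g⁻¹ ∈ X := (mem_normalizer_iff.1 hg x).1 hx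
    have hv : (g * x * g⁻¹ : L) = x := Subtype.ext (F.eq_of_le hL huL (hX.map L.subtype)
      (map_subtype_le X) ⟨_, hgx, rfl⟩ ⟨x, hx, rfl⟩
      (fun h => hne (by simpa using (OneMemClass.coe_eq_one.1 h : g * x * g⁻¹ = 1)))
      (fun h => hne (OneMemClass.coe_eq_one.1 h)))
    exact (mul_inv_eq_iff_eq_mul.1 hv).symm
  have hP := pcomp_of_localControl hlc
  set R := hP.regSubgroup
  haveI : R.Normal := hP.regSubgroup_normal
  refine ⟨R.map L.subtype, ⟨?_⟩, ?_, fun g => ?_⟩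
  · rintro _ ⟨n, hn, rfl⟩ g
    refine ⟨⟨g * n * g⁻¹, hL.conj_mem _ n.2 g⟩, ?_, rfl⟩
    exact (reg_map_iff (f := L.subtype) L.subtype_injective).1
      (reg_conj_iff.2 ((reg_map_iff (f := L.subtype) L.subtype_injective).2 hn))
  · rw [Nat.card_congr (R.equivMapOfInjective _ L.subtype_injective).toEquiv.symm]
    exact hP.not_dvd_card
  · set z' : L := ⟨F.z, hzL⟩
    set c' : L := ⟨g * F.z * g⁻¹, hL.conj_mem _ hzL g⟩
    obtain ⟨P, hzP⟩ := (IsPGroup.of_card_dvd_pow (p := 2) (n := 1) (by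
      rw [Nat.card_zpowers]
      exact orderOf_dvd_of_pow_eq_one (Subtype.ext F.z_sq)) :
        IsPGroup 2 (zpowers z')).exists_le_sylow
    have hP2 : ∀ t ∈ (P : Subgroup L), t = 1 ∨ t = z' := fun t ht => by
      refine or_iff_not_imp_left.2 fun hne => Subtype.ext ?_
      exact F.eq_of_le hL huL (P.2.map L.subtype) (map_subtype_le _) ⟨t, ht, rfl⟩
        ⟨z', hzP (mem_zpowers z'), rfl⟩ (fun h => hne (OneMemClass.coe_eq_one.1 h)) F.z_ne_one
    have hπ := QuotientGroup.mk'_surjective R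
    haveI : Finite (L ⧸ R) := Finite.of_surjective _ hπ
    have htop : (P.mapSurjective hπ : Subgroup (L ⧸ R)) = ⊤ :=
      ((P.mapSurjective hπ).3 (hP.isPGroup_quotient.to_subgroup ⊤) le_top).symm
    obtain ⟨t, ht, htc⟩ : QuotientGroup.mk' R c' ∈ (P : Subgroup L).map (QuotientGroup.mk' R) := by
      rw [← Sylow.coe_mapSurjective hπ, htop]
      exact mem_top _
    rcases hP2 t ht with rfl | rfl
    · rw [map_one] at htc
      have h1 : Reg 2 (g * F.z * g⁻¹) :=
        (reg_map_iff (f := L.subtype) L.subtype_injective).2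
          ((QuotientGroup.eq_one_iff c').1 htc.symm)
      refine absurd ((reg_conj_iff.1 h1).eq_one_of_pow (k := 1) ?_) F.z_ne_one
      rw [pow_one, F.z_sq]
    · refine ⟨c' * z'⁻¹, ?_, rfl⟩
      show c' * z'⁻¹ ∈ R
      rw [← QuotientGroup.eq_one_iff, QuotientGroup.mk_mul, QuotientGroup.mk_inv]
      exact mul_inv_eq_one.2 htc.symm

end FA.BrauerSuzuki
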